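import Mathlib
import Fermat.Agent.S24.Theta
import Fermat.Agent.S24.StabJ

set_option autoImplicit false

/-!
# The analytic uniformisation package of `F_N` over an arbitrary coefficient field

`S24.Theta` builds `theta ι N : A0 N →+* HolH` for the coefficient field `ℚ̄` only.  Here the
same construction is carried out for ANY field `L` of characteristic zero with a ring
homomorphism `ι : L →+* ℂ` (in particular `L = ℂ`, `ι = id`, which the descent `ℂ → ℚ̄` of
Kummer classes needs):

* `FL L N` : the function field `L(j(q^d) : d ∣ N) ⊆ L((q))` (Prelude `laurentBaseChange`);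
* `A0L L N` : the `L`-subalgebra generated by the `j(q^d)`;
* `thetaL ι N : A0L L N →+* HolH` : evaluation of `q`-expansions, injective,
  `Γ₀(N)`-invariant, with `Γ₀(N)` the exact common stabiliser.
-/

noncomputable section

open UpperHalfPlane ModularCurve HahnSeries ModularForm
open scoped MatrixGroups Manifold

namespace Fermat.Agent.S30.CSide

open Fermat.Agent.S24.HolH Fermat.Agent.S24.JFun Fermat.Agent.S24.StabAbs
open Fermat.Agent.S24.Theta Fermat.Agent.S24.DegreeGen

section Defs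

variable (L : Type) [Field L] [Algebra ℚ L] (N : ℕ)

/-- The function field of `X₀(N)` over `L`, as a subfield of `L((q))`. -/
abbrev FL : Type := ↥(laurentBaseChange L (modularFunctionFieldFull N))

/-- The element `j` of `FL L N`. -/
def jL : FL L N :=
  ⟨coeffEmb L jq,
    coeffEmb_mem_laurentBaseChange L
      (by have h := jqd_mem_full N (one_dvd N); rwa [qExpand_one_apply] at h)⟩

@[simp] theorem coe_jL : ((jL L N : FL L N) : LaurentSeries L) = coeffEmb L jq := rfl

/-- The `L`-subalgebra of `FL L N` generated by the `j(q^d)`, `d ∣ N`. -/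
def A0L : Subalgebra L (FL L N) :=
  (Algebra.adjoin L (gens L N)).comap (laurentBaseChange L (modularFunctionFieldFull N)).val

variable {L N}

theorem mem_A0L {x : FL L N} :
    x ∈ A0L L N ↔ (x : LaurentSeries L) ∈ Algebra.adjoin L (gens L N) := Iff.rfl

theorem adjoin_gens_le_FL :
    Algebra.adjoin L (gens L N) ≤
      (laurentBaseChange L (modularFunctionFieldFull N)).toSubalgebra := by
  have h := IntermediateField.algebra_adjoin_le_adjoin L (gens L N)
  rw [← laurentBaseChange_full_eq_adjoin] at h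
  exact h

theorem mem_FL_of_mem_adjoin {y : LaurentSeries L}
    (hy : y ∈ Algebra.adjoin L (gens L N)) :
    y ∈ laurentBaseChange L (modularFunctionFieldFull N) :=
  adjoin_gens_le_FL hy

/-- An element of `A0L L N` from a Laurent series in the algebra generated by the `j(q^d)`. -/
def mkA0L (y : LaurentSeries L) (hy : y ∈ Algebra.adjoin L (gens L N)) : A0L L N :=
  ⟨⟨y, mem_FL_of_mem_adjoin hy⟩, hy⟩

@[simp] theorem coe_mkA0L (y : LaurentSeries L) (hy : y ∈ Algebra.adjoin L (gens L N)) :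
    (((mkA0L y hy : A0L L N) : FL L N) : LaurentSeries L) = y := rfl

variable (L N)

/-- The generator `j(q^d)` of `A0L L N`. -/
def genL (d : ℕ) [NeZero d] (hd : d ∣ N) : A0L L N :=
  mkA0L (coeffEmb L (qExpand ℚ d jq)) (Algebra.subset_adjoin (coeffEmb_qExpand_mem_gens L hd))

@[simp] theorem coe_genL (d : ℕ) [NeZero d] (hd : d ∣ N) :
    (((genL L N d hd : A0L L N) : FL L N) : LaurentSeries L) = coeffEmb L (qExpand ℚ d jq) := rfl

/-- `j` as an element of `A0L L N`. -/
def jA0L : A0L L N :=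
  ⟨jL L N, Algebra.subset_adjoin (coeffEmb_jq_mem_gens L N)⟩

@[simp] theorem coe_jA0L : ((jA0L L N : A0L L N) : FL L N) = jL L N := rfl

theorem jA0L_eq_genL : jA0L L N = genL L N 1 (one_dvd N) := by
  apply Subtype.ext
  apply Subtype.ext
  show coeffEmb L jq = coeffEmb L (qExpand ℚ 1 jq)
  rw [qExpand_one_apply]

variable {L N}

theorem mkA0L_add (a b : LaurentSeries L) (ha : a ∈ Algebra.adjoin L (gens L N))
    (hb : b ∈ Algebra.adjoin L (gens L N)) :
    mkA0L (a + b) (add_mem ha hb) = mkA0L a ha + mkA0L b hb := by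
  apply Subtype.ext
  apply Subtype.ext
  rfl

theorem mkA0L_mul (a b : LaurentSeries L) (ha : a ∈ Algebra.adjoin L (gens L N))
    (hb : b ∈ Algebra.adjoin L (gens L N)) :
    mkA0L (a * b) (mul_mem ha hb) = mkA0L a ha * mkA0L b hb := by
  apply Subtype.ext
  apply Subtype.ext
  rfl

theorem mkA0L_algebraMap (c : L) :
    mkA0L (N := N) (algebraMap L (LaurentSeries L) c) (Subalgebra.algebraMap_mem _ c)
      = algebraMap L (A0L L N) c := by
  apply Subtype.ext
  apply Subtype.ext
  rfl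

theorem mkA0L_coe (x : A0L L N) : mkA0L ((x : FL L N) : LaurentSeries L) x.2 = x := rfl

/-- Induction principle for `A0L L N`. -/
theorem A0L_induction {p : A0L L N → Prop}
    (hgen : ∀ (d : ℕ) [NeZero d] (hd : d ∣ N), p (genL L N d hd))
    (hC : ∀ c : L, p (algebraMap L (A0L L N) c))
    (hadd : ∀ x y, p x → p y → p (x + y))
    (hmul : ∀ x y, p x → p y → p (x * y)) (x : A0L L N) : p x := by
  have key : ∀ (y : LaurentSeries L) (hy : y ∈ Algebra.adjoin L (gens L N)),
      p (mkA0L y hy) := by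
    intro y hy
    induction hy using Algebra.adjoin_induction with
    | mem y hy =>
      obtain ⟨z, ⟨d, hd0, hdN, rfl⟩, rfl⟩ := hy
      exact hgen d hdN
    | algebraMap c => rw [mkA0L_algebraMap]; exact hC c
    | add a b ha hb iha ihb => rw [mkA0L_add a b ha hb]; exact hadd _ _ iha ihb
    | mul a b ha hb iha ihb => rw [mkA0L_mul a b ha hb]; exact hmul _ _ iha ihb
  rw [← mkA0L_coe x]
  exact key _ _

/-- Every element of `FL L N` is a quotient of elements of `A0L L N`. -/
theorem exists_mul_eqL (f : FL L N) : ∃ a b : A0L L N, (b : FL L N) ≠ 0 ∧ f * b = a := by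
  have hf : (f : LaurentSeries L) ∈ IntermediateField.adjoin L (gens L N) := by
    rw [← laurentBaseChange_full_eq_adjoin]
    exact f.2
  obtain ⟨r, hr, s, hs, h⟩ := IntermediateField.mem_adjoin_iff_div.mp hf
  by_cases hs0 : s = 0
  · refine ⟨0, 1, one_ne_zero, ?_⟩
    apply Subtype.ext
    have h1 : (f : LaurentSeries L) = 0 := by rw [h, hs0, div_zero]
    simp [h1]
  · refine ⟨mkA0L r hr, mkA0L s hs, ?_, ?_⟩
    · intro h0
      apply hs0
      have h1 := congrArg (fun x : FL L N => (x : LaurentSeries L)) h0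
      simpa using h1
    · apply Subtype.ext
      have h1 : (f : LaurentSeries L) * s = r := by rw [h, div_mul_cancel₀ _ hs0]
      simpa using h1

instance isFractionRing_A0L : IsFractionRing (A0L L N) (FL L N) :=
  IsFractionRing.of_field _ _ fun z => by
    obtain ⟨a, b, hb, hab⟩ := exists_mul_eqL z
    refine ⟨a, b, ?_⟩
    show z = (a : FL L N) / (b : FL L N)
    rw [← hab, mul_div_cancel_right₀ _ hb]

end Defs

/-! ### The homomorphism `thetaL` -/

section ThetaDef

variable {L : Type} [Field L] [Algebra ℚ L] (ι : L →+* ℂ) (N : ℕ)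

theorem exists_holL (x : A0L L N) :
    ∃ φ : HolH, HasQ ι ((x : FL L N) : LaurentSeries L) (φ : ℍ → ℂ) := by
  refine A0L_induction (p := fun x : A0L L N =>
    ∃ φ : HolH, HasQ ι ((x : FL L N) : LaurentSeries L) (φ : ℍ → ℂ)) ?_ ?_ ?_ ?_ x
  · intro d _ hd
    exact ⟨jScale d, hasQ_coeffEmb_qExpand_jq ι d⟩
  · intro c
    exact ⟨algebraMap ℂ HolH (ι c), hasQ_algebraMap ι c⟩
  · rintro x y ⟨φ, hφ⟩ ⟨ψ, hψ⟩
    refine ⟨φ + ψ, ?_⟩
    have h := hφ.add hψ
    simpa using h
  · rintro x y ⟨φ, hφ⟩ ⟨ψ, hψ⟩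
    refine ⟨φ * ψ, ?_⟩
    have h := hφ.mul hψ
    simpa using h

/-- underlying function of `thetaL` -/
def thetaLFun (x : A0L L N) : HolH := (exists_holL ι N x).choose

theorem hasQ_thetaLFun (x : A0L L N) :
    HasQ ι ((x : FL L N) : LaurentSeries L) (thetaLFun ι N x : ℍ → ℂ) :=
  (exists_holL ι N x).choose_spec

theorem thetaLFun_eq {x : A0L L N} {φ : HolH}
    (h : HasQ ι ((x : FL L N) : LaurentSeries L) (φ : ℍ → ℂ)) : thetaLFun ι N x = φ :=
  Subtype.ext ((hasQ_thetaLFun ι N x).fun_unique h)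

/-- **Theta over `L`**: the ring homomorphism `A0L L N → HolH` sending `j(q^d)` to
`τ ↦ j(dτ)`; an element is sent to the holomorphic function whose `q`-expansion it is. -/
def thetaL : A0L L N →+* HolH where
  toFun := thetaLFun ι N
  map_one' := thetaLFun_eq ι N (by
    have h := hasQ_one (K := L) ι
    simpa using h)
  map_mul' x y := thetaLFun_eq ι N (by
    have h := (hasQ_thetaLFun ι N x).mul (hasQ_thetaLFun ι N y)
    simpa using h)
  map_zero' := thetaLFun_eq ι N (by
    have h := hasQ_zero (K := L) ι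
    simpa using h)
  map_add' x y := thetaLFun_eq ι N (by
    have h := (hasQ_thetaLFun ι N x).add (hasQ_thetaLFun ι N y)
    simpa using h)

/-- `thetaL x` has `q`-expansion `x`. -/
theorem hasQ_thetaL (x : A0L L N) :
    HasQ ι ((x : FL L N) : LaurentSeries L) (thetaL ι N x : ℍ → ℂ) :=
  hasQ_thetaLFun ι N x

variable {ι N}

theorem thetaL_eq_of_hasQ {x : A0L L N} {φ : HolH}
    (h : HasQ ι ((x : FL L N) : LaurentSeries L) (φ : ℍ → ℂ)) : thetaL ι N x = φ :=
  thetaLFun_eq ι N h

variable (ι N)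

theorem thetaL_genL (d : ℕ) [NeZero d] (hd : d ∣ N) : thetaL ι N (genL L N d hd) = jScale d :=
  thetaL_eq_of_hasQ (hasQ_coeffEmb_qExpand_jq ι d)

theorem thetaL_genL_apply (d : ℕ) [NeZero d] (hd : d ∣ N) (τ : ℍ) :
    (thetaL ι N (genL L N d hd) : ℍ → ℂ) τ = jFun (scaleH d τ) := by
  rw [thetaL_genL]
  rfl

theorem thetaL_algebraMap (c : L) :
    thetaL ι N (algebraMap L (A0L L N) c) = algebraMap ℂ HolH (ι c) :=
  thetaL_eq_of_hasQ (hasQ_algebraMap ι c)

theorem thetaL_algebraMap_apply (c : L) (τ : ℍ) :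
    (thetaL ι N (algebraMap L (A0L L N) c) : ℍ → ℂ) τ = ι c := by
  rw [thetaL_algebraMap]
  rfl

theorem thetaL_jA0L : (thetaL ι N (jA0L L N) : ℍ → ℂ) = jFun := by
  rw [jA0L_eq_genL, thetaL_genL]
  funext τ
  rw [jScale_apply, scaleH_one]

theorem thetaL_jA0L_apply (τ : ℍ) : (thetaL ι N (jA0L L N) : ℍ → ℂ) τ = jFun τ := by
  rw [thetaL_jA0L]

theorem thetaL_injective : Function.Injective (thetaL ι N) := by
  intro x y h
  have h1 := hasQ_thetaL ι N x
  have h2 := hasQ_thetaL ι N y
  rw [h] at h1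
  exact Subtype.ext (Subtype.ext (h1.unique h2))

variable {ι N}

/-- Induction principle for the graph of `thetaL`. -/
theorem thetaL_induction {P : A0L L N → HolH → Prop}
    (hgen : ∀ (d : ℕ) [NeZero d] (hd : d ∣ N), P (genL L N d hd) (jScale d))
    (hC : ∀ c : L, P (algebraMap L (A0L L N) c) (algebraMap ℂ HolH (ι c)))
    (hadd : ∀ x y φ ψ, P x φ → P y ψ → P (x + y) (φ + ψ))
    (hmul : ∀ x y φ ψ, P x φ → P y ψ → P (x * y) (φ * ψ)) (x : A0L L N) :
    P x (thetaL ι N x) := by
  refine A0L_induction (p := fun x : A0L L N => P x (thetaL ι N x)) ?_ ?_ ?_ ?_ x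
  · intro d _ hd
    rw [thetaL_genL]
    exact hgen d hd
  · intro c
    rw [thetaL_algebraMap]
    exact hC c
  · intro x y hx hy
    rw [map_add]
    exact hadd _ _ _ _ hx hy
  · intro x y hx hy
    rw [map_mul]
    exact hmul _ _ _ _ hx hy

/-- Induction principle for the image of `thetaL`. -/
theorem thetaL_image_induction {P : HolH → Prop}
    (hgen : ∀ (d : ℕ) [NeZero d], d ∣ N → P (jScale d))
    (hC : ∀ c : L, P (algebraMap ℂ HolH (ι c)))
    (hadd : ∀ φ ψ, P φ → P ψ → P (φ + ψ))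
    (hmul : ∀ φ ψ, P φ → P ψ → P (φ * ψ)) (x : A0L L N) :
    P (thetaL ι N x) :=
  thetaL_induction (P := fun _ φ => P φ) (fun d _ hd => hgen d hd) hC
    (fun _ _ φ ψ => hadd φ ψ) (fun _ _ φ ψ => hmul φ ψ) x

/-- `thetaL x` is `Γ₀(N)`-invariant. -/
theorem compSL_thetaL_of_mem_Gamma0 {g : SL(2, ℤ)} (hg : g ∈ CongruenceSubgroup.Gamma0 N)
    (x : A0L L N) : compSL g (thetaL ι N x) = thetaL ι N x := by
  refine thetaL_image_induction (P := fun φ : HolH => compSL g φ = φ) ?_ ?_ ?_ ?_ x
  · intro d _ hd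
    apply Subtype.ext
    funext τ
    exact Fermat.Agent.S24.StabJ.jFun_scale_smul_of_mem_Gamma0 hd g hg τ
  · intro c
    exact (compSL g).commutes (ι c)
  · intro φ ψ hφ hψ
    rw [map_add, hφ, hψ]
  · intro φ ψ hφ hψ
    rw [map_mul, hφ, hψ]

variable (ι N)

/-- `compSL g` fixes `thetaL ι N (jA0L L N)` (the function `j`). -/
theorem compSL_thetaL_jA0L (g : SL(2, ℤ)) :
    compSL g (thetaL ι N (jA0L L N)) = thetaL ι N (jA0L L N) := by
  apply Subtype.ext
  funext τ
  show (thetaL ι N (jA0L L N) : ℍ → ℂ) (g • τ) = (thetaL ι N (jA0L L N) : ℍ → ℂ) τ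
  rw [thetaL_jA0L_apply, thetaL_jA0L_apply, jFun_smul]

/-- `compSL g` fixes the constants. -/
theorem compSL_thetaL_algebraMap (g : SL(2, ℤ)) (c : L) :
    compSL g (thetaL ι N (algebraMap L (A0L L N) c)) = thetaL ι N (algebraMap L (A0L L N) c) := by
  rw [thetaL_algebraMap]
  exact (compSL g).commutes (ι c)

/-- The stabiliser of `thetaL ι N (genL L N N _)` (the function `τ ↦ j(Nτ)`) is `Γ₀(N)`. -/
theorem mem_Gamma0_of_compSL_thetaL_genL [NeZero N] (g : SL(2, ℤ))
    (h : compSL g (thetaL ι N (genL L N N dvd_rfl)) = thetaL ι N (genL L N N dvd_rfl)) :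
    g ∈ CongruenceSubgroup.Gamma0 N := by
  apply Fermat.Agent.S24.StabJ.mem_Gamma0_of_jFun_scale N g
  intro τ
  have h1 := congrArg (fun φ : HolH => (φ : ℍ → ℂ) τ) h
  simp only [compSL_apply] at h1
  rw [thetaL_genL_apply, thetaL_genL_apply] at h1
  exact h1

/-- Separation: an element of `SL(2,ℤ)` fixing every `thetaL x` lies in `Γ₀(N)`. -/
theorem mem_Gamma0_of_thetaL_stab [NeZero N] (g : SL(2, ℤ))
    (h : ∀ f : A0L L N, compSL g (thetaL ι N f) = thetaL ι N f) :
    g ∈ CongruenceSubgroup.Gamma0 N :=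
  mem_Gamma0_of_compSL_thetaL_genL ι N g (h _)

end ThetaDef

end Fermat.Agent.S30.CSide

end
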