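import Mathlib
import Fermat.Agent.S30.CSide.Pkg
import Fermat.Agent.S24.Degree.Main

set_option autoImplicit false
set_option linter.dupNamespace false

/-!
# Degree and transcendence degree of `F_N` over an arbitrary algebraically closed field

For `L` algebraically closed of characteristic zero with `ι : L →+* ℂ`:
`[FL L N : L(j)] = ψ(N)`, `trdeg_L (FL L N) = 1`, `j` transcendental.
(Port of `S24.Degree.{Lower, Main}` from `ℚ̄` to `L`; the analytic inputs `Sym`, `Growth`,
`Descent`, `DegreeAbs`, `HolHCoset` are field-generic and reused as they are.)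
-/

noncomputable section

open ModularCurve IntermediateField UpperHalfPlane CongruenceSubgroup
open scoped MatrixGroups

namespace Fermat.Agent.S30.CSide

open Fermat.Agent.S24.Theta Fermat.Agent.S24.HolH Fermat.Agent.S24.JFun
open Fermat.Agent.S24.DegreeGen Fermat.Agent.S24.Degree Fermat.Agent.S24.StabAbs

local notation "𝕢" => Function.Periodic.qParam

variable {L : Type} [Field L] [Algebra ℚ L]

theorem jL_not_mem_range (N : ℕ) :
    jL L N ∉ Set.range (algebraMap L (FL L N)) := by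
  rintro ⟨c, hc⟩
  apply coeffEmb_jq_not_mem_range L
  refine ⟨c, ?_⟩
  have h := congrArg (fun x : FL L N => (x : LaurentSeries L)) hc
  exact h

theorem transcendental_jL [IsAlgClosed L] (N : ℕ) : Transcendental L (jL L N) :=
  Fermat.Agent.S24.FF.transcendental_of_not_mem_range (jL_not_mem_range N)

/-! ### Lower bound -/

/-- The coset-indexed embeddings of `FL L N` into `Frac(HolH)`. -/
def cosetEmbL (ι : L →+* ℂ) (N : ℕ) (x : SL(2, ℤ) ⧸ Gamma0 N) :
    FL L N →+* FractionRing HolH :=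
  IsFractionRing.lift (A := A0L L N) (K := FL L N)
    (g := (algebraMap HolH (FractionRing HolH)).comp (cosetHom (thetaL ι N) x))
    ((IsFractionRing.injective HolH (FractionRing HolH)).comp
      (cosetHom_injective (thetaL ι N) (thetaL_injective ι N) x))

theorem cosetEmbL_coe (ι : L →+* ℂ) (N : ℕ) (x : SL(2, ℤ) ⧸ Gamma0 N) (a : A0L L N) :
    cosetEmbL ι N x (a : FL L N)
      = algebraMap HolH (FractionRing HolH) (cosetHom (thetaL ι N) x a) :=
  IsFractionRing.lift_algebraMap _ a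

theorem cosetEmbL_injective (ι : L →+* ℂ) (N : ℕ) [NeZero N] :
    Function.Injective (cosetEmbL ι N) := by
  intro x y hxy
  apply cosetHom_index_injective (thetaL ι N)
    (fun γ hγ a => compSL_thetaL_of_mem_Gamma0 hγ a) (genL L N N dvd_rfl)
    (mem_Gamma0_of_compSL_thetaL_genL ι N)
  ext a : 1
  have h1 := congrArg (fun ρ : FL L N →+* FractionRing HolH => ρ (a : FL L N)) hxy
  simp only [cosetEmbL_coe] at h1
  exact IsFractionRing.injective HolH (FractionRing HolH) h1

theorem cosetEmbL_algebraMap (ι : L →+* ℂ) (N : ℕ) (x y : SL(2, ℤ) ⧸ Gamma0 N) (c : L) :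
    cosetEmbL ι N x (algebraMap L (FL L N) c) = cosetEmbL ι N y (algebraMap L (FL L N) c) := by
  have h : algebraMap L (FL L N) c = ((algebraMap L (A0L L N) c : A0L L N) : FL L N) := rfl
  rw [h, cosetEmbL_coe, cosetEmbL_coe,
    cosetHom_of_invariant (thetaL ι N) (fun g => compSL_thetaL_algebraMap ι N g c) x,
    cosetHom_of_invariant (thetaL ι N) (fun g => compSL_thetaL_algebraMap ι N g c) y]

theorem cosetEmbL_jL (ι : L →+* ℂ) (N : ℕ) (x y : SL(2, ℤ) ⧸ Gamma0 N) :
    cosetEmbL ι N x (jL L N) = cosetEmbL ι N y (jL L N) := by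
  have h : jL L N = ((jA0L L N : A0L L N) : FL L N) := rfl
  rw [h, cosetEmbL_coe, cosetEmbL_coe,
    cosetHom_of_invariant (thetaL ι N) (fun g => compSL_thetaL_jA0L ι N g) x,
    cosetHom_of_invariant (thetaL ι N) (fun g => compSL_thetaL_jA0L ι N g) y]

/-- Lower bound: `[SL(2,ℤ) : Γ₀(N)] ≤ [FL L N : L(j)]`. -/
theorem card_le_finrank_jL (ι : L →+* ℂ) (N : ℕ) [NeZero N] [Finite (SL(2, ℤ) ⧸ Gamma0 N)]
    [Module.Finite L⟮jL L N⟯ (FL L N)] :
    Nat.card (SL(2, ℤ) ⧸ Gamma0 N) ≤ Module.finrank L⟮jL L N⟯ (FL L N) :=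
  Fermat.Agent.S24.DegreeAbs.card_le_finrank_of_injective' (jL L N) (cosetEmbL ι N)
    (cosetEmbL_injective ι N) (cosetEmbL_algebraMap ι N) (cosetEmbL_jL ι N)

/-! ### Upper bound -/

/-- the generators `j(q^d)`, `d ∣ N`, as a set of elements of `FL L N`. -/
def gensFL (L : Type) [Field L] [Algebra ℚ L] (N : ℕ) : Set (FL L N) :=
  {x | (x : LaurentSeries L) ∈ gens L N}

theorem gensFL_finite (N : ℕ) [NeZero N] : (gensFL L N).Finite :=
  (gens_finite L N).preimage Subtype.val_injective.injOn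

theorem gensFL_subset_A0L (N : ℕ) : gensFL L N ⊆ (A0L L N : Set (FL L N)) :=
  fun _ hx => Algebra.subset_adjoin hx

theorem jL_mem_gensFL (N : ℕ) : jL L N ∈ gensFL L N := coeffEmb_jq_mem_gens L N

theorem coe_A0L_mem_adjoin (N : ℕ) (a : A0L L N) :
    (a : FL L N) ∈ IntermediateField.adjoin L (gensFL L N) := by
  refine A0L_induction
    (p := fun a : A0L L N => (a : FL L N) ∈ IntermediateField.adjoin L (gensFL L N)) ?_ ?_ ?_ ?_ a
  · intro d _ hd
    exact IntermediateField.subset_adjoin _ _ (coeffEmb_qExpand_mem_gens L hd)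
  · intro c
    exact IntermediateField.algebraMap_mem _ c
  · intro x y hx hy
    exact add_mem hx hy
  · intro x y hx hy
    exact mul_mem hx hy

theorem adjoin_gensFL (N : ℕ) : IntermediateField.adjoin L (gensFL L N) = ⊤ := by
  rw [eq_top_iff]
  intro x _
  obtain ⟨a, b, hb, hab⟩ := exists_mul_eqL x
  have hx : x = (a : FL L N) / (b : FL L N) := eq_div_of_mul_eq hb hab
  rw [hx]
  exact div_mem (coe_A0L_mem_adjoin N a) (coe_A0L_mem_adjoin N b)

/-- every `thetaL x` has moderate growth at all cusps. -/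
theorem thetaL_mem_cuspMod (ι : L →+* ℂ) (N : ℕ) (x : A0L L N) : thetaL ι N x ∈ cuspMod :=
  thetaL_image_induction (P := fun φ : HolH => φ ∈ cuspMod)
    (fun d _ _ => jScale_mem_cuspMod d (jScale d) (fun _ => rfl))
    (fun _ => Subalgebra.algebraMap_mem _ _)
    (fun _ _ h1 h2 => add_mem h1 h2) (fun _ _ h1 h2 => mul_mem h1 h2) x

set_option synthInstance.maxHeartbeats 400000 in
/-- Upper bound, elementwise: every element of `A0L L N` is a root of a monic polynomial of
degree `[SL(2,ℤ) : Γ₀(N)]` over `L(j)`. -/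
theorem exists_monic_A0L (ι : L →+* ℂ) (N : ℕ) [NeZero N] [Fintype (SL(2, ℤ) ⧸ Gamma0 N)]
    (a : A0L L N) :
    ∃ q : Polynomial L⟮jL L N⟯, q.Monic ∧
      q.natDegree = Fintype.card (SL(2, ℤ) ⧸ Gamma0 N) ∧
      Polynomial.aeval (a : FL L N) q = 0 := by
  have hθ : ∀ γ ∈ Gamma0 N, ∀ x : A0L L N, compSL γ (thetaL ι N x) = thetaL ι N x :=
    fun γ hγ x => compSL_thetaL_of_mem_Gamma0 hγ x
  have hB : ∀ f ∈ cuspMod, ∃ m : ℕ,
      IsBoundedAtImInfty (fun τ : ℍ => 𝕢 1 (τ : ℂ) ^ m * (f : ℍ → ℂ) τ) := by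
    intro f hf
    obtain ⟨m, hm⟩ := hf 1
    refine ⟨m, ?_⟩
    simpa using hm
  have hBθ : ∀ x : SL(2, ℤ) ⧸ Gamma0 N, cosetHom (thetaL ι N) x a ∈ cuspMod := by
    intro x
    rw [cosetHom_apply]
    exact compSL_mem_cuspMod _ (thetaL_mem_cuspMod ι N a)
  obtain ⟨P, hP⟩ := exists_poly_relation (N := N) (thetaL ι N) hθ cuspMod hB a hBθ
  have hexp : ∀ (e k : ℕ) (τ : ℍ),
      HasSum (fun m : ℤ => ι ((((jL L N : FL L N) : LaurentSeries L) ^ e
          * ((a : FL L N) : LaurentSeries L) ^ k).coeff m) * 𝕢 1 (τ : ℂ) ^ m)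
        (jFun τ ^ e * (thetaL ι N a : ℍ → ℂ) τ ^ k) := by
    intro e k τ
    have h := hasQ_thetaL ι N (jA0L L N ^ e * a ^ k) τ
    have hv : (thetaL ι N (jA0L L N ^ e * a ^ k) : ℍ → ℂ) τ
        = jFun τ ^ e * (thetaL ι N a : ℍ → ℂ) τ ^ k := by
      rw [map_mul, map_pow, map_pow]
      show (thetaL ι N (jA0L L N) : ℍ → ℂ) τ ^ e * (thetaL ι N a : ℍ → ℂ) τ ^ k = _
      rw [thetaL_jA0L_apply]
    rw [hv] at h
    exact h
  obtain ⟨p, hp⟩ := exists_poly_relation_of_hasSum ι ((a : FL L N) : LaurentSeries L)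
    ((jL L N : FL L N) : LaurentSeries L) (thetaL ι N a : ℍ → ℂ) jFun hexp
    (Fintype.card (SL(2, ℤ) ⧸ Gamma0 N)) P hP
  refine exists_monic_of_relation (jL L N) (a : FL L N) _ p ?_
  have hinj : Function.Injective (laurentBaseChange L (modularFunctionFieldFull N)).val :=
    Subtype.val_injective
  apply hinj
  rw [map_add, map_pow, map_sum, map_zero]
  simp only [map_mul, map_pow, ← Polynomial.aeval_algHom_apply]
  exact hp

/-- `FL L N` is finite over `L(j)` of degree `ψ(N)`. -/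
theorem finite_and_finrank_jL [CharZero L] (ι : L →+* ℂ) (N : ℕ) [NeZero N] :
    Module.Finite L⟮jL L N⟯ (FL L N) ∧ Module.finrank L⟮jL L N⟯ (FL L N) = dedekindPsi N := by
  classical
  haveI : Finite (SL(2, ℤ) ⧸ Gamma0 N) :=
    Fermat.Agent.S24.GenusNat.finite_quotient N (NeZero.ne N)
  letI : Fintype (SL(2, ℤ) ⧸ Gamma0 N) := Fintype.ofFinite _
  obtain ⟨hfin, hle⟩ := Fermat.Agent.S24.DegreeAbs.finite_and_finrank_le (jL L N) (gensFL L N)
    (gensFL_finite N) (adjoin_gensFL N) (Algebra.subset_adjoin (jL_mem_gensFL N))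
    (Fintype.card (SL(2, ℤ) ⧸ Gamma0 N))
    (fun a ha => exists_monic_A0L ι N ⟨a, Algebra.adjoin_le (gensFL_subset_A0L N) ha⟩)
  haveI := hfin
  have hge := card_le_finrank_jL ι N
  rw [Nat.card_eq_fintype_card] at hge
  refine ⟨hfin, ?_⟩
  rw [← Fermat.Agent.S24.Comb.card_quotient_Gamma0 N, Nat.card_eq_fintype_card]
  exact le_antisymm hle hge

theorem finite_jL [CharZero L] (ι : L →+* ℂ) (N : ℕ) [NeZero N] :
    Module.Finite L⟮jL L N⟯ (FL L N) := (finite_and_finrank_jL ι N).1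

theorem finrank_jL [CharZero L] (ι : L →+* ℂ) (N : ℕ) [NeZero N] :
    Module.finrank L⟮jL L N⟯ (FL L N) = dedekindPsi N := (finite_and_finrank_jL ι N).2

/-- `FL L N` has transcendence degree one over `L`. -/
theorem trdeg_FL [IsAlgClosed L] [CharZero L] (ι : L →+* ℂ) (N : ℕ) [NeZero N] :
    Algebra.trdeg L (FL L N) = 1 := by
  haveI : Module.Finite L⟮jL L N⟯ (FL L N) := finite_jL ι N
  haveI : Algebra.IsAlgebraic L⟮jL L N⟯ (FL L N) := Algebra.IsAlgebraic.of_finite _ _
  exact Fermat.Agent.S24.DegreeAbs.trdeg_eq_one (jL L N) (transcendental_jL N)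

end Fermat.Agent.S30.CSide

end
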