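import Mathlib
import Fermat.Agent.S24.JHol

set_option autoImplicit false
set_option linter.dupNamespace false

/-!
# Exact local order of `j - j(τ)` at EVERY point of the upper half plane

`S24.JFun` / `S24.JHol` compute the order of `j - j(τ)` at `τ = ρ`, `τ = i` and at the points with
`j(τ) ∉ {0, 1728}`.  Here: for every `τ : ℍ`,
`ordZ τ (jHol - j(τ)) = jRam (j τ)` where `jRam a = 3, 2, 1` for `a = 0`, `a = 1728`, else
(every zero of `E₄` and of `E₆` is simple, since `E₄³ - E₆² = 1728 Δ` has no zero).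
-/

open scoped Manifold MatrixGroups Topology
open UpperHalfPlane hiding I
open ModularForm ModularFormClass EisensteinSeries Complex Filter Derivative
open Fermat.Agent.S24.HolH Fermat.Agent.S24.JFun Fermat.Agent.S24.JHol

noncomputable section

namespace Fermat.Agent.S30.CSide

local notation "Δ" => ModularForm.discriminant

/-- The ramification index of `j : ℍ → ℂ` over the point `a`. -/
def jRam (a : ℂ) : ℕ := if a = 0 then 3 else if a = 1728 then 2 else 1

theorem jRam_pos (a : ℂ) : 0 < jRam a := by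
  unfold jRam
  split_ifs <;> norm_num

theorem jRam_zero : jRam 0 = 3 := by simp [jRam]

theorem jRam_1728 : jRam 1728 = 2 := by simp [jRam]

theorem jRam_of_ne {a : ℂ} (h0 : a ≠ 0) (h1 : a ≠ 1728) : jRam a = 1 := by simp [jRam, h0, h1]

/-- `jRam` is invariant under field automorphisms of `ℂ`. -/
theorem jRam_map (σ : ℂ ≃+* ℂ) (a : ℂ) : jRam (σ a) = jRam a := by
  have h0 : σ a = 0 ↔ a = 0 := map_eq_zero_iff σ σ.injective
  have h1 : σ a = 1728 ↔ a = 1728 := by
    have h : σ 1728 = 1728 := map_ofNat σ 1728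
    constructor
    · intro h2
      rw [← h] at h2
      exact σ.injective h2
    · intro h2
      rw [h2, h]
  simp only [jRam, h0, h1]

theorem E6_ne_zero_of_E4_eq_zero {z : ℍ} (h : E₄ z = 0) : E₆ z ≠ 0 := by
  intro h6
  have h1 := disc_eq z
  rw [h, h6] at h1
  apply discriminant_ne_zero z
  linear_combination h1 / 1728

theorem E4_ne_zero_of_E6_eq_zero {z : ℍ} (h : E₆ z = 0) : E₄ z ≠ 0 := by
  intro h4
  have h1 := disc_eq z
  rw [h, h4] at h1
  apply discriminant_ne_zero z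
  linear_combination h1 / 1728

/-- `j` vanishes to order exactly `3` at every zero of `E₄`. -/
theorem analyticOrderAt_jFun_of_E4 (z : ℍ) (hz : E₄ z = 0) :
    analyticOrderAt (jFun ∘ ofComplex) (z : ℂ) = 3 := by
  have h1 := analyticAt_comp_ofComplex jFun_mdiff z
  have h2 := analyticAt_comp_ofComplex disc_mdiff z
  have h4 := analyticAt_comp_ofComplex (ModularFormClass.holo E₄) z
  have hmul := analyticOrderAt_mul h1 h2
  have hΔ : analyticOrderAt ((Δ : ℍ → ℂ) ∘ ofComplex) (z : ℂ) = 0 :=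
    analyticOrderAt_eq_zero_of_ne_zero disc_mdiff _ (discriminant_ne_zero _)
  rw [hΔ, add_zero] at hmul
  rw [← hmul]
  have hE4 : analyticOrderAt (E₄ ∘ ofComplex) (z : ℂ) = 1 := by
    refine analyticOrderAt_eq_one_of_D_ne_zero (ModularFormClass.holo E₄) _ hz ?_
    rw [D_E4, hz, mul_zero, zero_sub]
    exact div_ne_zero (neg_ne_zero.mpr (E6_ne_zero_of_E4_eq_zero hz)) three_ne_zero
  have hpow := analyticOrderAt_pow h4 3
  rw [hE4] at hpow
  have hcongr : (jFun ∘ ofComplex) * ((Δ : ℍ → ℂ) ∘ ofComplex) = (E₄ ∘ ofComplex) ^ 3 := by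
    funext w
    simp only [Pi.mul_apply, Function.comp_apply, Pi.pow_apply]
    exact jFun_mul_disc (ofComplex w)
  rw [hcongr, hpow]
  rfl

/-- `j - 1728` vanishes to order exactly `2` at every zero of `E₆`. -/
theorem analyticOrderAt_jFun_sub_of_E6 (z : ℍ) (hz : E₆ z = 0) :
    analyticOrderAt ((fun w : ℍ => jFun w - 1728) ∘ ofComplex) (z : ℂ) = 2 := by
  have h1 := analyticAt_comp_ofComplex (jFun_sub_mdiff 1728) z
  have h2 := analyticAt_comp_ofComplex disc_mdiff z
  have h6 := analyticAt_comp_ofComplex (ModularFormClass.holo E₆) z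
  have hmul := analyticOrderAt_mul h1 h2
  have hΔ : analyticOrderAt ((Δ : ℍ → ℂ) ∘ ofComplex) (z : ℂ) = 0 :=
    analyticOrderAt_eq_zero_of_ne_zero disc_mdiff _ (discriminant_ne_zero _)
  rw [hΔ, add_zero] at hmul
  rw [← hmul]
  have hE6 : analyticOrderAt (E₆ ∘ ofComplex) (z : ℂ) = 1 := by
    refine analyticOrderAt_eq_one_of_D_ne_zero (ModularFormClass.holo E₆) _ hz ?_
    rw [D_E6, hz, mul_zero, zero_sub]
    exact div_ne_zero (neg_ne_zero.mpr (pow_ne_zero 2 (E4_ne_zero_of_E6_eq_zero hz))) two_ne_zero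
  have hpow := analyticOrderAt_pow h6 2
  rw [hE6] at hpow
  have hcongr : ((fun w : ℍ => jFun w - 1728) ∘ ofComplex) * ((Δ : ℍ → ℂ) ∘ ofComplex)
      = (E₆ ∘ ofComplex) ^ 2 := by
    funext w
    simp only [Pi.mul_apply, Function.comp_apply, Pi.pow_apply]
    exact jFun_sub_1728_mul_disc (ofComplex w)
  rw [hcongr, hpow]
  rfl

/-- **Exact order of `j - j(τ)` at `τ`**, for every `τ`. -/
theorem ordZ_jHol_sub_eq_jRam (τ : ℍ) :
    ordZ τ (jHol - algebraMap ℂ HolH (jFun τ)) = (jRam (jFun τ) : ℤ) := by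
  by_cases h0 : jFun τ = 0
  · rw [h0, jRam_zero, map_zero, sub_zero, ordZ, ordAt, toC_jHol,
      analyticOrderAt_jFun_of_E4 τ ((jFun_eq_zero_iff τ).mp h0)]
    rfl
  · by_cases h1 : jFun τ = 1728
    · rw [h1, jRam_1728, ordZ, ordAt, toC_jHol_sub,
        analyticOrderAt_jFun_sub_of_E6 τ ((jFun_eq_1728_iff τ).mp h1)]
      rfl
    · rw [jRam_of_ne h0 h1, ordZ_jHol_sub_self τ h0 h1]
      rfl

theorem ordZ_jHol_sub_of_jFun_eq {τ : ℍ} {a : ℂ} (h : jFun τ = a) :
    ordZ τ (jHol - algebraMap ℂ HolH a) = (jRam a : ℤ) := by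
  subst h
  exact ordZ_jHol_sub_eq_jRam τ

end Fermat.Agent.S30.CSide

end
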