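import Mathlib
import Fermat.Agent.S30.CSide.Degree
import Fermat.Agent.S24.Comb.Counts

set_option autoImplicit false
set_option linter.dupNamespace false
set_option linter.style.haveILetI false

/-!
# `j(q^N)` is a primitive element of `F_L / L(j)`

For any field `L` of characteristic zero with `ι : L →+* ℂ`:
`L(j)(j(q^N)) = FL L N`, and the minimal polynomial of `j(q^N)` over `L(j)` has degree `ψ(N)`.

Generic tool: a family of `n ≥ [F : K(J)]` embeddings of `F` agreeing on `K(J)` and pairwise
distinct at `θ` forces `K(J)(θ) = F`.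
-/

noncomputable section

open ModularCurve IntermediateField UpperHalfPlane CongruenceSubgroup
open scoped MatrixGroups

namespace Fermat.Agent.S30.CSide

open Fermat.Agent.S24.Theta Fermat.Agent.S24.HolH Fermat.Agent.S24.JFun

section Abstract

variable {K F : Type*} [Field K] [Field F] [Algebra K F]

/-- **Primitive element from embeddings.**  If `X`-many embeddings of `F` agree on a subfield `M`
(over which `F` is finite of degree `≤ |X|`) and are pairwise distinct at `θ`, then
`M(θ) = F`. -/
theorem adjoin_eq_top_of_embeddings {E : Type*} [Field E] (M : IntermediateField K F)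
    [Module.Finite M F] (θ : F) {X : Type*} [Finite X] (ι : X → (F →+* E))
    (hagree : ∀ (x y : X) (l : M), ι x (l : F) = ι y (l : F))
    (hθ : Function.Injective fun x => ι x θ)
    (hcard : Module.finrank M F ≤ Nat.card X) :
    IntermediateField.adjoin M {θ} = ⊤ := by
  classical
  rcases isEmpty_or_nonempty X with hX | ⟨⟨x₀⟩⟩
  · have h0 : Nat.card X = 0 := Nat.card_of_isEmpty
    have h1 : 0 < Module.finrank M F := Module.finrank_pos
    omega
  let _ : Algebra M E := ((ι x₀).comp (algebraMap M F)).toAlgebra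
  -- restrict the embeddings to `M(θ)`
  let φ : X → ((IntermediateField.adjoin M {θ} : IntermediateField M F) →ₐ[M] E) := fun x =>
    { (ι x).comp (algebraMap (IntermediateField.adjoin M {θ} : IntermediateField M F) F) with
      commutes' := fun l => hagree x x₀ l }
  have hφ : Function.Injective φ := by
    intro x y hxy
    apply hθ
    have h1 := congrArg
      (fun ψ : (IntermediateField.adjoin M {θ} : IntermediateField M F) →ₐ[M] E =>
        ψ ⟨θ, IntermediateField.mem_adjoin_simple_self M θ⟩) hxy
    exact h1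
  have h2 : Nat.card X ≤ Module.finrank M (IntermediateField.adjoin M {θ} : IntermediateField M F) :=
    (Nat.card_le_card_of_injective φ hφ).trans (card_algHom_le_finrank M _ E)
  have h3 : Module.finrank M (IntermediateField.adjoin M {θ} : IntermediateField M F)
      ≤ Module.finrank M F :=
    Submodule.finrank_le (IntermediateField.adjoin M {θ} : IntermediateField M F).toSubalgebra.toSubmodule
  have h4 : Module.finrank M (IntermediateField.adjoin M {θ} : IntermediateField M F)
      = Module.finrank M F := le_antisymm h3 (hcard.trans h2)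
  apply IntermediateField.eq_of_le_of_finrank_eq le_top
  rw [h4, IntermediateField.finrank_top']

end Abstract

section Modular

variable {L : Type} [Field L] [Algebra ℚ L] [CharZero L]

/-- The element `j(q^N)` of `FL L N`. -/
def thetaNL (L : Type) [Field L] [Algebra ℚ L] (N : ℕ) [NeZero N] : FL L N :=
  ((genL L N N dvd_rfl : A0L L N) : FL L N)

omit [CharZero L] in
theorem coe_thetaNL (N : ℕ) [NeZero N] :
    ((thetaNL L N : FL L N) : LaurentSeries L) = coeffEmb L (qExpand ℚ N jq) := rfl

/-- **`j(q^N)` generates `FL L N` over `L(j)`.** -/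
theorem adjoin_thetaNL_eq_top (ι : L →+* ℂ) (N : ℕ) [NeZero N] :
    IntermediateField.adjoin L⟮jL L N⟯ {thetaNL L N} = ⊤ := by
  classical
  haveI : Finite (SL(2, ℤ) ⧸ Gamma0 N) :=
    Fermat.Agent.S24.GenusNat.finite_quotient N (NeZero.ne N)
  haveI : Module.Finite L⟮jL L N⟯ (FL L N) := finite_jL ι N
  have hθinv : ∀ γ ∈ Gamma0 N, ∀ a : A0L L N, compSL γ (thetaL ι N a) = thetaL ι N a :=
    fun γ hγ a => compSL_thetaL_of_mem_Gamma0 hγ a
  refine adjoin_eq_top_of_embeddings L⟮jL L N⟯ (thetaNL L N) (cosetEmbL ι N) ?_ ?_ ?_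
  · intro x y l
    exact Fermat.Agent.S24.DegreeAbs.agree_on_adjoin_simple (jL L N) (cosetEmbL ι N x)
      (cosetEmbL ι N y) (cosetEmbL_algebraMap ι N x y) (cosetEmbL_jL ι N x y) l
  · intro x y hxy
    simp only [thetaNL, cosetEmbL_coe] at hxy
    have h1 := IsFractionRing.injective HolH (FractionRing HolH) hxy
    -- distinct cosets give distinct translates of `j(Nτ)`
    obtain ⟨g, rfl⟩ := QuotientGroup.mk_surjective x
    obtain ⟨h, rfl⟩ := QuotientGroup.mk_surjective y
    rw [cosetHom_mk (thetaL ι N) hθinv, cosetHom_mk (thetaL ι N) hθinv] at h1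
    have h2 : compSL (g⁻¹ * h) (thetaL ι N (genL L N N dvd_rfl)) = thetaL ι N (genL L N N dvd_rfl) := by
      rw [compSL_mul, h1, ← compSL_mul, inv_mul_cancel, compSL_one]
    exact QuotientGroup.eq.mpr (mem_Gamma0_of_compSL_thetaL_genL ι N _ h2)
  · rw [finrank_jL ι N, Fermat.Agent.S24.Comb.card_quotient_Gamma0]

/-- The minimal polynomial of `j(q^N)` over `L(j)` has degree `ψ(N)`. -/
theorem natDegree_minpoly_thetaNL (ι : L →+* ℂ) (N : ℕ) [NeZero N] :
    (minpoly L⟮jL L N⟯ (thetaNL L N)).natDegree = dedekindPsi N := by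
  haveI : Module.Finite L⟮jL L N⟯ (FL L N) := finite_jL ι N
  have hint : IsIntegral L⟮jL L N⟯ (thetaNL L N) := IsIntegral.of_finite _ _
  rw [← IntermediateField.adjoin.finrank hint, ← finrank_jL ι N]
  have h := adjoin_thetaNL_eq_top ι N
  rw [h, IntermediateField.finrank_top']

/-- A monic polynomial of degree `ψ(N)` over `L(j)` vanishing at `j(q^N)` is its minimal
polynomial. -/
theorem minpoly_thetaNL_eq (ι : L →+* ℂ) (N : ℕ) [NeZero N] (P : Polynomial L⟮jL L N⟯)
    (hP : P.Monic) (hdeg : P.natDegree = dedekindPsi N)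
    (hroot : Polynomial.aeval (thetaNL L N) P = 0) :
    minpoly L⟮jL L N⟯ (thetaNL L N) = P := by
  haveI : Module.Finite L⟮jL L N⟯ (FL L N) := finite_jL ι N
  have hint : IsIntegral L⟮jL L N⟯ (thetaNL L N) := IsIntegral.of_finite _ _
  have hdvd : minpoly L⟮jL L N⟯ (thetaNL L N) ∣ P := minpoly.dvd _ _ hroot
  have hle : P.natDegree ≤ (minpoly L⟮jL L N⟯ (thetaNL L N)).natDegree := by
    rw [hdeg, natDegree_minpoly_thetaNL ι N]
  exact (Polynomial.eq_of_monic_of_dvd_of_natDegree_le (minpoly.monic hint) hP hdvd hle).symm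

end Modular

end Fermat.Agent.S30.CSide

end
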