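import Mathlib
import Fermat.Agent.S30.CSide.Degree
import Fermat.Agent.S30.CSide.JOrd
import Fermat.Agent.S30.PlacePoint.Generic
import Fermat.Agent.S24.Comb.Counts
import Fermat.Agent.S24.AdjoinShift

set_option autoImplicit false
set_option linter.dupNamespace false
set_option linter.style.haveILetI false

/-!
# Places of `F_L` and points of `ℍ`; Galois stability of "`m` divides the divisor on `ℍ`"

For `L` algebraically closed of characteristic zero with `ι : L →+* ℂ`: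

* `exists_point_of_placeL`: every place `v` of `FL L N` with `0 < v.ord (j - a)` is the place of a
  point `τ : ℍ` with `j(τ) = ι a`: `ordZ τ (thetaL ι N f) = κ * v.ord f` for all `f ≠ 0` in `A0L`,
  and `κ * v.ord (j - a) = jRam (ι a)`.
* `exists_place_of_pointL`: every `τ : ℍ` with `j(τ) = ι a` defines such a place.
* `divH_smul` (`L = ℂ`): the property `DivH N m f` ("the divisor of `f` on `ℍ` is divisible by `m`")
  is stable under the semilinear action of `Aut(ℂ)` on `F_ℂ`.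
-/

noncomputable section

open ModularCurve AlgebraicCurve IntermediateField UpperHalfPlane CongruenceSubgroup
open scoped MatrixGroups

namespace Fermat.Agent.S30.CSide

open Fermat.Agent.S24.Theta Fermat.Agent.S24.HolH Fermat.Agent.S24.JFun Fermat.Agent.S24.JHol

section Generic

variable {L : Type} [Field L] [Algebra ℚ L]

/-- The element `j - a` of `A0L L N`. -/
def numL (N : ℕ) (a : L) : A0L L N := jA0L L N - algebraMap L (A0L L N) a

theorem coe_numL (N : ℕ) (a : L) :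
    ((numL N a : A0L L N) : FL L N) = jL L N - algebraMap L (FL L N) a := rfl

theorem thetaL_jA0L_eq (ι : L →+* ℂ) (N : ℕ) : thetaL ι N (jA0L L N) = jHol :=
  Subtype.ext (thetaL_jA0L ι N)

theorem thetaL_numL (ι : L →+* ℂ) (N : ℕ) (a : L) :
    thetaL ι N (numL N a) = jHol - algebraMap ℂ HolH (ι a) := by
  rw [numL, map_sub, thetaL_jA0L_eq, thetaL_algebraMap]

theorem numL_ne_zero (ι : L →+* ℂ) (N : ℕ) (a : L) : numL (L := L) N a ≠ 0 := by
  intro h
  have h1 := thetaL_numL ι N a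
  rw [h, map_zero] at h1
  exact jHol_sub_ne_zero (ι a) h1.symm

theorem coe_ne_zero_A0L {N : ℕ} {f : A0L L N} (hf : f ≠ 0) : (f : FL L N) ≠ 0 := by
  intro h
  exact hf (Subtype.ext h)

theorem thetaL_ne_zero (ι : L →+* ℂ) {N : ℕ} {f : A0L L N} (hf : f ≠ 0) : thetaL ι N f ≠ 0 :=
  (map_ne_zero_iff _ (thetaL_injective ι N)).mpr hf

/-- The difference of orders `ord_τ θ(a) - ord_τ θ(b)` only depends on the quotient `a / b`. -/
theorem ordZ_thetaL_sub_eq_of_repr (ι : L →+* ℂ) {N : ℕ} {f : FL L N} {a b a' b' : A0L L N}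
    (ha : a ≠ 0) (hb : b ≠ 0) (ha' : a' ≠ 0) (hb' : b' ≠ 0)
    (h : f * (b : FL L N) = a) (h' : f * (b' : FL L N) = a') (τ : ℍ) :
    ordZ τ (thetaL ι N a') - ordZ τ (thetaL ι N b')
      = ordZ τ (thetaL ι N a) - ordZ τ (thetaL ι N b) := by
  have hcross : a * b' = a' * b := by
    apply Subtype.ext
    show (a : FL L N) * (b' : FL L N) = (a' : FL L N) * (b : FL L N)
    rw [← h, ← h']
    ring
  have h1 := congrArg (thetaL ι N) hcross
  rw [map_mul, map_mul] at h1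
  have h2 := congrArg (ordZ τ) h1
  rw [ordZ_mul τ (thetaL_ne_zero ι ha) (thetaL_ne_zero ι hb'),
    ordZ_mul τ (thetaL_ne_zero ι ha') (thetaL_ne_zero ι hb)] at h2
  omega

/-- Order of a quotient at a place. -/
theorem place_ord_of_repr {N : ℕ} (w : Place L (FL L N)) {f : FL L N} {a b : A0L L N}
    (ha : a ≠ 0) (hb : b ≠ 0) (h : f * (b : FL L N) = a) :
    w.ord f = w.ord (a : FL L N) - w.ord (b : FL L N) := by
  have hb0 : (b : FL L N) ≠ 0 := coe_ne_zero_A0L hb
  have hf0 : f ≠ 0 := by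
    rintro rfl
    rw [zero_mul] at h
    exact coe_ne_zero_A0L ha h.symm
  rw [← h, Place.ord_mul w hf0 hb0]
  ring

/-! ### The semilinear Galois action fixes `j` -/

theorem arithGal_smul_jL (N : ℕ) (σ : L ≃ₐ[ℚ] L) :
    arithmeticGalois (modularFunctionFieldFull N) σ • jL L N = jL L N := by
  apply Subtype.ext
  rw [coe_arithmeticGalois_smul]
  exact coeffMap_coeffEmb σ jq

theorem arithGal_smul_sub (N : ℕ) (σ : L ≃ₐ[ℚ] L) (a : L) :
    arithmeticGalois (modularFunctionFieldFull N) σ • (jL L N - algebraMap L (FL L N) a)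
      = jL L N - algebraMap L (FL L N) (σ a) := by
  rw [smul_sub, arithGal_smul_jL, SemilinearAut.smul_algebraMap]
  rfl

end Generic

/-! ### Places and points -/

section AlgClosed

open Fermat.Agent.S24.FibreCount.ValPlace

variable {L : Type} [Field L] [Algebra ℚ L]

/-- **Point → place.**  Every point `τ : ℍ` whose `j`-invariant is `L`-rational defines a place of
`FL L N`, whose order function is proportional to `ord_τ ∘ θ`. -/
theorem exists_place_of_pointL (ι : L →+* ℂ) (N : ℕ) (τ : ℍ) (a : L) (ha : jFun τ = ι a) :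
    ∃ v : Place L (FL L N), ∃ κ : ℤ, 0 < κ ∧
      ∀ f : A0L L N, f ≠ 0 → ordZ τ (thetaL ι N f) = κ * v.ord (f : FL L N) := by
  classical
  obtain ⟨w, E, hw, -, hw_apply, -⟩ :=
    Fermat.Agent.S30.PlacePoint.exists_field_data (A0L L N) exists_mul_eqL (ordZ τ)
      (fun a b ha hb => ordZ_mul τ ha hb) (fun a b ha hb hab => min_le_ordZ_add τ ha hb hab)
      (fun _ : Unit => thetaL ι N) (fun _ => thetaL_injective ι N)
  have hu : IsOrd (fun f : FL L N => w (E () f)) := hw.comp (E ())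
  have hK : ∀ c : L, c ≠ 0 → w (E () (algebraMap L (FL L N) c)) = 0 := by
    intro c hc
    have hc' : algebraMap L (A0L L N) c ≠ 0 := by
      intro h0
      have h1 := congrArg (thetaL ι N) h0
      rw [thetaL_algebraMap, map_zero] at h1
      have h2 := congrArg (fun φ : HolH => (φ : ℍ → ℂ) τ) h1
      have h3 : ι c = 0 := h2
      exact hc ((map_eq_zero ι).mp h3)
    have h := hw_apply () (algebraMap L (A0L L N) c) hc'
    rw [thetaL_algebraMap] at h
    rw [show algebraMap L (FL L N) c = ((algebraMap L (A0L L N) c : A0L L N) : FL L N) from rfl, h]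
    exact ordZ_algebraMap ((map_ne_zero ι).mpr hc)
  have hnt : ∃ t : FL L N, t ≠ 0 ∧ 0 < w (E () t) := by
    refine ⟨(numL N a : A0L L N), coe_ne_zero_A0L (numL_ne_zero ι N a), ?_⟩
    rw [hw_apply () _ (numL_ne_zero ι N a), thetaL_numL, ordZ_jHol_sub_of_jFun_eq ha]
    exact_mod_cast jRam_pos _
  obtain ⟨κ, hκ, -, hκv⟩ := exists_ramification_placeOfOrd hu hK hnt
  refine ⟨placeOfOrd hu hK hnt, κ, hκ, fun f hf => ?_⟩
  rw [← hκv _ (coe_ne_zero_A0L hf), hw_apply () f hf]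

variable [IsAlgClosed L] [CharZero L]

/-- **Place → point.**  Every place of `FL L N` over a finite point `j = a` is the place of a
point `τ : ℍ` with `j(τ) = ι a`. -/
theorem exists_point_of_placeL (ι : L →+* ℂ) (N : ℕ) [NeZero N] (v : Place L (FL L N)) (a : L)
    (hv : 0 < v.ord (jL L N - algebraMap L (FL L N) a)) :
    ∃ τ : ℍ, jFun τ = ι a ∧ ∃ κ : ℤ, 0 < κ ∧
      ∀ f : A0L L N, f ≠ 0 → ordZ τ (thetaL ι N f) = κ * v.ord (f : FL L N) := by
  classical
  haveI : Finite (SL(2, ℤ) ⧸ Gamma0 N) :=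
    Fermat.Agent.S24.GenusNat.finite_quotient N (NeZero.ne N)
  letI : Fintype (SL(2, ℤ) ⧸ Gamma0 N) := Fintype.ofFinite _
  obtain ⟨τ0, hτ0⟩ := jFun_surjective (ι a)
  have hx0 := transcendental_jL (L := L) N
  have hx := Fermat.Agent.S24.AdjoinShift.transcendental_sub_algebraMap hx0 a
  have hfin0 : FiniteDimensional L⟮jL L N⟯ (FL L N) := finite_jL ι N
  have hfin := Fermat.Agent.S24.AdjoinShift.finiteDimensional_sub_algebraMap (jL L N) a hfin0
  have hθ : ∀ γ ∈ Gamma0 N, ∀ x : A0L L N, compSL γ (thetaL ι N x) = thetaL ι N x :=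
    fun γ hγ x => compSL_thetaL_of_mem_Gamma0 hγ x
  have hnuminv : ∀ g : SL(2, ℤ), compSL g (thetaL ι N (numL N a)) = thetaL ι N (numL N a) := by
    intro g
    rw [thetaL_numL, compSL_jHol_sub]
  have hcard : Fintype.card (SL(2, ℤ) ⧸ Gamma0 N)
      = Module.finrank L⟮jL L N - algebraMap L (FL L N) a⟯ (FL L N) := by
    rw [Fermat.Agent.S24.AdjoinShift.finrank_sub_algebraMap, finrank_jL ι N,
      ← Nat.card_eq_fintype_card, Fermat.Agent.S24.Comb.card_quotient_Gamma0]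
  have hK : ∀ (i j : SL(2, ℤ) ⧸ Gamma0 N) (c : L),
      cosetHom (thetaL ι N) i (algebraMap L (A0L L N) c)
        = cosetHom (thetaL ι N) j (algebraMap L (A0L L N) c) := by
    intro i j c
    rw [cosetHom_of_invariant (thetaL ι N) (fun g => compSL_thetaL_algebraMap ι N g c) i,
      cosetHom_of_invariant (thetaL ι N) (fun g => compSL_thetaL_algebraMap ι N g c) j]
  have hnum : ∀ i j : SL(2, ℤ) ⧸ Gamma0 N,
      cosetHom (thetaL ι N) i (numL N a) = cosetHom (thetaL ι N) j (numL N a) := by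
    intro i j
    rw [cosetHom_of_invariant (thetaL ι N) hnuminv i,
      cosetHom_of_invariant (thetaL ι N) hnuminv j]
  have hden : ∀ i j : SL(2, ℤ) ⧸ Gamma0 N,
      cosetHom (thetaL ι N) i (1 : A0L L N) = cosetHom (thetaL ι N) j 1 := by
    intro i j
    rw [map_one, map_one]
  have hconst : ∀ (i : SL(2, ℤ) ⧸ Gamma0 N) (c : L), c ≠ 0 →
      ordZ τ0 (cosetHom (thetaL ι N) i (algebraMap L (A0L L N) c)) = 0 := by
    intro i c hc
    rw [cosetHom_of_invariant (thetaL ι N) (fun g => compSL_thetaL_algebraMap ι N g c) i,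
      thetaL_algebraMap]
    exact ordZ_algebraMap ((map_ne_zero ι).mpr hc)
  have hxpos : ∀ i : SL(2, ℤ) ⧸ Gamma0 N,
      ordZ τ0 (cosetHom (thetaL ι N) i (1 : A0L L N))
        < ordZ τ0 (cosetHom (thetaL ι N) i (numL N a)) := by
    intro i
    rw [map_one, ordZ_one, cosetHom_of_invariant (thetaL ι N) hnuminv i, thetaL_numL,
      ordZ_jHol_sub_of_jFun_eq hτ0]
    exact_mod_cast jRam_pos _
  obtain ⟨i, κ, hκ, hi⟩ := Fermat.Agent.S30.PlacePoint.exists_emb
    (jL L N - algebraMap L (FL L N) a) hx hfin (A0L L N) exists_mul_eqL (numL N a) 1 one_ne_zero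
    (by rw [OneMemClass.coe_one, mul_one, coe_numL]) (ordZ τ0)
    (fun a b ha hb => ordZ_mul τ0 ha hb) (fun a b ha hb hab => min_le_ordZ_add τ0 ha hb hab)
    (cosetHom (N := N) (thetaL ι N)) (cosetHom_injective (thetaL ι N) (thetaL_injective ι N))
    (cosetHom_index_injective (thetaL ι N) hθ (genL L N N dvd_rfl)
      (mem_Gamma0_of_compSL_thetaL_genL ι N))
    hcard hK hnum hden hconst hxpos v hv
  refine ⟨(Quotient.out i)⁻¹ • τ0, ?_, κ, hκ, fun f hf => ?_⟩
  · rw [jFun_smul, hτ0]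
  · rw [← hi f hf, cosetHom_apply, ordZ_compSL]

omit [IsAlgClosed L] [CharZero L] in
/-- The ramification of a place over `j = a` against its point: `κ * e = jRam`. -/
theorem jRam_eq_mul_ord (ι : L →+* ℂ) (N : ℕ) (v : Place L (FL L N)) (a : L) (τ : ℍ)
    (hτ : jFun τ = ι a) (κ : ℤ)
    (h : ∀ f : A0L L N, f ≠ 0 → ordZ τ (thetaL ι N f) = κ * v.ord (f : FL L N)) :
    (jRam (ι a) : ℤ) = κ * v.ord (jL L N - algebraMap L (FL L N) a) := by
  have h1 := h (numL N a) (numL_ne_zero ι N a)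
  rw [thetaL_numL, coe_numL, ordZ_jHol_sub_of_jFun_eq hτ] at h1
  exact h1

end AlgClosed

/-! ### Galois stability over `ℂ` -/

section Complex

/-- The divisor of `f ∈ F_ℂ` on `ℍ` is divisible by `m`: for one (equivalently every, see
`DivH.forall_repr`) representation `f = a / b` with `a, b` in the algebra generated by the
`j(q^d)`, all `ord_τ θ(a) - ord_τ θ(b)` are divisible by `m`. -/
def DivH (N m : ℕ) (f : FL ℂ N) : Prop :=
  ∃ a b : A0L ℂ N, a ≠ 0 ∧ b ≠ 0 ∧ f * (b : FL ℂ N) = (a : FL ℂ N) ∧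
    ∀ τ : ℍ, (m : ℤ) ∣ ordZ τ (thetaL (RingHom.id ℂ) N a) - ordZ τ (thetaL (RingHom.id ℂ) N b)

theorem DivH.ne_zero {N m : ℕ} {f : FL ℂ N} (h : DivH N m f) : f ≠ 0 := by
  obtain ⟨a, b, ha, hb, hab, -⟩ := h
  rintro rfl
  rw [zero_mul] at hab
  exact coe_ne_zero_A0L ha hab.symm

/-- Independence of the representation. -/
theorem DivH.forall_repr {N m : ℕ} {f : FL ℂ N} (h : DivH N m f) {a b : A0L ℂ N}
    (ha : a ≠ 0) (hb : b ≠ 0) (hab : f * (b : FL ℂ N) = (a : FL ℂ N)) (τ : ℍ) :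
    (m : ℤ) ∣ ordZ τ (thetaL (RingHom.id ℂ) N a) - ordZ τ (thetaL (RingHom.id ℂ) N b) := by
  obtain ⟨a₀, b₀, ha₀, hb₀, hab₀, hdiv⟩ := h
  rw [ordZ_thetaL_sub_eq_of_repr (RingHom.id ℂ) ha₀ hb₀ ha hb hab₀ hab τ]
  exact hdiv τ

theorem DivH.of_repr {N m : ℕ} {f : FL ℂ N} {a b : A0L ℂ N}
    (ha : a ≠ 0) (hb : b ≠ 0) (hab : f * (b : FL ℂ N) = (a : FL ℂ N))
    (hdiv : ∀ τ : ℍ,
      (m : ℤ) ∣ ordZ τ (thetaL (RingHom.id ℂ) N a) - ordZ τ (thetaL (RingHom.id ℂ) N b)) :
    DivH N m f := ⟨a, b, ha, hb, hab, hdiv⟩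

theorem semilinear_inv_smul_sub {N : ℕ} (g : SemilinearAut ℂ (FL ℂ N))
    (hg : g • jL ℂ N = jL ℂ N) (a : ℂ) :
    g⁻¹ • (jL ℂ N - algebraMap ℂ (FL ℂ N) a)
      = jL ℂ N - algebraMap ℂ (FL ℂ N) (SemilinearAut.baseAut g⁻¹ a) := by
  rw [smul_sub, SemilinearAut.smul_algebraMap, inv_smul_eq_iff.mpr hg.symm]

theorem semilinear_inv_ord {N : ℕ} (g : SemilinearAut ℂ (FL ℂ N)) (v : Place ℂ (FL ℂ N))
    (f : FL ℂ N) : (g⁻¹ • v).ord f = v.ord (g • f) := by
  have h1 := SemilinearAut.ord_smul g⁻¹ v (g • f)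
  rw [inv_smul_smul] at h1
  exact h1

theorem semilinear_smul_ne_zero {N : ℕ} (g : SemilinearAut ℂ (FL ℂ N)) {f : FL ℂ N}
    (hf : f ≠ 0) : g • f ≠ 0 := by
  intro h0
  apply hf
  have h1 := congrArg (fun x => g⁻¹ • x) h0
  simpa using h1

/-- **Galois stability**, general form: if the divisor of `f ∈ F_ℂ` on `ℍ` is divisible by `m`,
so is the divisor of `g • f` for every semilinear automorphism `g` of `F_ℂ` fixing `j`. -/
theorem divH_smul_of_fix (N m : ℕ) [NeZero N] (g : SemilinearAut ℂ (FL ℂ N))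
    (hg : g • jL ℂ N = jL ℂ N) (f : FL ℂ N) (h : DivH N m f) : DivH N m (g • f) := by
  have hf0 : f ≠ 0 := h.ne_zero
  obtain ⟨a, b, ha, hb, hab, hdiv⟩ := h
  have hf'0 : g • f ≠ 0 := semilinear_smul_ne_zero g hf0
  obtain ⟨a', b', hb'0, hab'⟩ := exists_mul_eqL (g • f)
  have hb' : b' ≠ 0 := by
    rintro rfl
    exact hb'0 rfl
  have ha'0 : (a' : FL ℂ N) ≠ 0 := by
    rw [← hab']
    exact mul_ne_zero hf'0 hb'0
  have ha' : a' ≠ 0 := by
    rintro rfl
    exact ha'0 rfl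
  refine ⟨a', b', ha', hb', hab', fun τ => ?_⟩
  -- the place of `τ`
  obtain ⟨v, κ, hκ, hv⟩ := exists_place_of_pointL (RingHom.id ℂ) N τ (jFun τ) rfl
  have hvnum := jRam_eq_mul_ord (RingHom.id ℂ) N v (jFun τ) τ rfl κ hv
  have hvpos : 0 < v.ord (jL ℂ N - algebraMap ℂ (FL ℂ N) (jFun τ)) := by
    have h2 : (0 : ℤ) < jRam ((RingHom.id ℂ) (jFun τ)) := by exact_mod_cast jRam_pos _
    rw [hvnum] at h2
    exact (mul_pos_iff_of_pos_left hκ).mp h2
  -- the conjugate place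
  have hv'ord : (g⁻¹ • v).ord
      (jL ℂ N - algebraMap ℂ (FL ℂ N) (SemilinearAut.baseAut g⁻¹ (jFun τ)))
        = v.ord (jL ℂ N - algebraMap ℂ (FL ℂ N) (jFun τ)) := by
    rw [← semilinear_inv_smul_sub g hg]
    exact SemilinearAut.ord_smul _ v _
  obtain ⟨τ1, hτ1, κ', hκ', hv'⟩ := exists_point_of_placeL (RingHom.id ℂ) N
    (g⁻¹ • v) (SemilinearAut.baseAut g⁻¹ (jFun τ)) (by rw [hv'ord]; exact hvpos)
  have hv'num := jRam_eq_mul_ord (RingHom.id ℂ) N _ (SemilinearAut.baseAut g⁻¹ (jFun τ)) τ1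
    hτ1 κ' hv'
  have hram : jRam ((RingHom.id ℂ) (SemilinearAut.baseAut g⁻¹ (jFun τ)))
      = jRam ((RingHom.id ℂ) (jFun τ)) :=
    jRam_map (SemilinearAut.baseAut g⁻¹) (jFun τ)
  have hκκ : κ' = κ := by
    rw [hv'ord, hram, hvnum] at hv'num
    exact (mul_right_cancel₀ hvpos.ne' hv'num).symm
  -- orders of `f` and `g • f`
  have h1 := hdiv τ1
  rw [hv' a ha, hv' b hb, ← mul_sub, ← place_ord_of_repr _ ha hb hab, semilinear_inv_ord,
    hκκ] at h1
  rw [hv a' ha', hv b' hb', ← mul_sub, ← place_ord_of_repr _ ha' hb' hab']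
  exact h1

/-- **Galois stability.**  If the divisor of `f ∈ F_ℂ` on `ℍ` is divisible by `m`, so is the
divisor of every conjugate `σ • f`, `σ ∈ Aut(ℂ)` (acting on the coefficients of `q`-expansions). -/
theorem divH_smul (N m : ℕ) [NeZero N] (σ : ℂ ≃ₐ[ℚ] ℂ) (f : FL ℂ N) (h : DivH N m f) :
    DivH N m (arithmeticGalois (modularFunctionFieldFull N) σ • f) :=
  divH_smul_of_fix N m _ (arithGal_smul_jL N σ) f h

end Complex

end Fermat.Agent.S30.CSide

end
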